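import Fermat.Statements.S02

set_option autoImplicit false
open FreyPackage

namespace Fermat.Agent.S02

theorem neg_flt {a b c : ℤ} {p : ℕ} (hp : Odd p) (H : a ^ p + b ^ p = c ^ p) :
    (-a) ^ p + (-b) ^ p = (-c) ^ p := by
  rw [hp.neg_pow, hp.neg_pow, hp.neg_pow, ← H]; ring

theorem of_b_even (a b c : ℤ) (ha : a ≠ 0) (hb : b ≠ 0) (hc : c ≠ 0) (hab : gcd a b = 1)
    (h2b : (2 : ℤ) ∣ b) (p : ℕ) (pp : p.Prime) (hp5 : 5 ≤ p) (H : a ^ p + b ^ p = c ^ p) :
    Nonempty FreyPackage := by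
  have hpodd : Odd p := pp.odd_of_ne_two (by omega)
  have hb2 : ((b : ℤ) : ZMod 2) = 0 := (ZMod.intCast_zmod_eq_zero_iff_dvd b 2).2 h2b
  have ha_odd : ¬ (2 : ℤ) ∣ a := by
    intro h2a
    have h : (2 : ℤ) ∣ gcd a b := dvd_gcd h2a h2b
    rw [hab] at h
    exact absurd h (by decide)
  have ha4 : a % 4 = 1 ∨ a % 4 = 3 := by
    have : a % 2 = 1 := by
      rcases Int.emod_two_eq_zero_or_one a with h | h
      · exact absurd (Int.dvd_of_emod_eq_zero h) ha_odd
      · exact h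
    omega
  rcases ha4 with h | h
  · -- negate everything
    refine ⟨⟨-a, -b, -c, neg_ne_zero.2 ha, neg_ne_zero.2 hb, neg_ne_zero.2 hc, p, pp, hp5,
      neg_flt hpodd H, ?_, ?_, ?_⟩⟩
    · rw [gcd_neg, neg_gcd]; exact hab
    · have h3 : ((-a : ℤ) : ZMod 4) = ((3 : ℤ) : ZMod 4) := by
        rw [ZMod.intCast_eq_intCast_iff_dvd_sub]
        omega
      simpa using h3
    · rw [Int.cast_neg, hb2, neg_zero]
  · refine ⟨⟨a, b, c, ha, hb, hc, p, pp, hp5, H, hab, ?_, hb2⟩⟩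
    have h3 : ((a : ℤ) : ZMod 4) = ((3 : ℤ) : ZMod 4) := by
      rw [ZMod.intCast_eq_intCast_iff_dvd_sub]
      omega
    simpa using h3

theorem of_coprime (a b c : ℤ) (ha : a ≠ 0) (hb : b ≠ 0) (hc : c ≠ 0) (hab : gcd a b = 1)
    (p : ℕ) (pp : p.Prime) (hp5 : 5 ≤ p) (H : a ^ p + b ^ p = c ^ p) :
    Nonempty FreyPackage := by
  have hpodd : Odd p := pp.odd_of_ne_two (by omega)
  have hp0 : p ≠ 0 := by omega
  have hppos : 0 < p := by omega
  by_cases h2b : (2 : ℤ) ∣ b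
  · exact of_b_even a b c ha hb hc hab h2b p pp hp5 H
  by_cases h2a : (2 : ℤ) ∣ a
  · refine of_b_even b a c hb ha hc ?_ h2a p pp hp5 ?_
    · rw [gcd_comm]; exact hab
    · rw [add_comm]; exact H
  -- both a and b odd, so c is even
  have h2c : (2 : ℤ) ∣ c := by
    have hao : Odd a := by
      rw [← Int.not_even_iff_odd, even_iff_two_dvd]; exact h2a
    have hbo : Odd b := by
      rw [← Int.not_even_iff_odd, even_iff_two_dvd]; exact h2b
    have hce : Even (c ^ p) := by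
      rw [← H]; exact (hao.pow).add_odd (hbo.pow)
    have : Even c := (Int.even_pow.1 hce).1
    exact even_iff_two_dvd.1 this
  -- a^p + (-c)^p = (-b)^p
  refine of_b_even a (-c) (-b) ha (neg_ne_zero.2 hc) (neg_ne_zero.2 hb) ?_ (by simpa using h2c)
    p pp hp5 ?_
  · rw [gcd_neg]
    rw [← gcdab_eq_gcdac hppos H]; exact hab
  · rw [hpodd.neg_pow, hpodd.neg_pow, ← H]; ring

theorem result (a b c : ℤ) (ha : a ≠ 0) (hb : b ≠ 0) (hc : c ≠ 0) (p : ℕ) (pp : p.Prime) (hp5 : 5 ≤ p) (H : a ^ p + b ^ p = c ^ p) : Nonempty FreyPackage := by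
  have hp0 : p ≠ 0 := by omega
  -- divide by the gcd
  set d : ℤ := gcd a b with hd
  have hd0 : d ≠ 0 := by
    intro h
    rw [hd, gcd_eq_zero_iff] at h
    exact ha h.1
  obtain ⟨a', ha'⟩ : d ∣ a := gcd_dvd_left a b
  obtain ⟨b', hb'⟩ : d ∣ b := gcd_dvd_right a b
  have hdc : d ∣ c := by
    rw [← Int.pow_dvd_pow_iff hp0, ← H]
    exact dvd_add (pow_dvd_pow_of_dvd (gcd_dvd_left a b) p) (pow_dvd_pow_of_dvd (gcd_dvd_right a b) p)
  obtain ⟨c', hc'⟩ := hdc
  have ha'0 : a' ≠ 0 := by rintro rfl; simp at ha'; exact ha ha'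
  have hb'0 : b' ≠ 0 := by rintro rfl; simp at hb'; exact hb hb'
  have hc'0 : c' ≠ 0 := by rintro rfl; simp at hc'; exact hc hc'
  have hcop : gcd a' b' = 1 := by
    have h1 : gcd (d * a') (d * b') = normalize d * gcd a' b' := gcd_mul_left d a' b'
    rw [← ha', ← hb', ← hd] at h1
    have hnd : normalize d = d := by rw [hd]; exact normalize_gcd a b
    rw [hnd] at h1
    have : d * 1 = d * gcd a' b' := by rw [mul_one]; exact h1
    exact (mul_left_cancel₀ hd0 this).symm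
  have H' : a' ^ p + b' ^ p = c' ^ p := by
    have : d ^ p * (a' ^ p + b' ^ p) = d ^ p * c' ^ p := by
      rw [mul_add, ← mul_pow, ← mul_pow, ← mul_pow, ← ha', ← hb', ← hc']; exact H
    exact mul_left_cancel₀ (pow_ne_zero p hd0) this
  exact of_coprime a' b' c' ha'0 hb'0 hc'0 hcop p pp hp5 H'

end Fermat.Agent.S02
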