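-- Statement S05: the mod-p Galois representation of the Frey curve is unramified at odd q ≠ p.
-- The statement below is byte-identical to the frozen statement FreyPackage.FermatFrozen.S05.
import Fermat.Statements.S05
import Fermat.Agent.S05.Wiring
import Fermat.Agent.S05.TLProof

set_option autoImplicit false
open WeierstrassCurve WeierstrassCurve.Affine WeierstrassCurve.Affine.Point
open CuspForm ModularFormClass UpperHalfPlane
open FreyPackage

namespace Fermat.Agent.S05

theorem result (P : FreyPackage) {q : ℕ} (hq : q.Prime) (hq2 : q ≠ 2) (hqp : q ≠ P.p) : P.GaloisRepUnramifiedAt q := by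
  exact unramified_of_legendreLocal legendreLocalHyp P hq hq2 hqp

end Fermat.Agent.S05
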