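-- Statement S11 (row 10): Frey package with `p = 11`.
-- Proof: by vacuity.  A Frey package with exponent `p` contains a nontrivial integer solution of
-- `a ^ p + b ^ p = c ^ p`, which does not exist for `p = 11` (Kummer; `Fermat.Agent.FLTK`).
import Fermat.Statements.S11
import Fermat.Agent.FLTK.Small

set_option autoImplicit false
open WeierstrassCurve WeierstrassCurve.Affine WeierstrassCurve.Affine.Point
open CuspForm ModularFormClass UpperHalfPlane
open FreyPackage

namespace Fermat.Agent.S11

theorem result (P : FreyPackage) (hp : P.p = 11) : ¬ HasGaloisStableCofixedLine (K := AlgebraicClosure ℚ) ℚ P.freyCurve P.p := by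
  have h4 : P.p = 5 ∨ P.p = 7 ∨ P.p = 11 ∨ P.p = 13 := Or.inr (Or.inr (Or.inl hp))
  exact absurd P.hFLT
    (Fermat.Agent.FLTK.int_ne_of_flt (Fermat.Agent.FLTK.flt_small P.p h4) P.ha0 P.hb0 P.hc0)

end Fermat.Agent.S11
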