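-- Statement S13 (row 12): a reducible mod-p representation of the Frey curve has a
-- Galois-stable cofixed line.  Proof: Fermat/Agent/S13/Frontier.lean (hasCofixedLine_frey),
-- assembled from the packages (A) E[p] structure, (B) 2-adic node calculus, (C) p-adic
-- kernel-of-reduction bound, (D) Minkowski.
import Fermat.Statements.S13
import Fermat.Agent.S13.Frontier

set_option autoImplicit false
open WeierstrassCurve WeierstrassCurve.Affine WeierstrassCurve.Affine.Point
open CuspForm ModularFormClass UpperHalfPlane
open FreyPackage

namespace Fermat.Agent.S13

theorem result (P : FreyPackage) (hred : ¬ GaloisRepIsIrreducible (K := AlgebraicClosure ℚ) ℚ P.freyCurve P.p) : HasGaloisStableCofixedLine (K := AlgebraicClosure ℚ) ℚ P.freyCurve P.p :=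
  Fermat.Agent.S13x.hasCofixedLine_frey P hred

end Fermat.Agent.S13
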