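-- Statement S14: ExtVanishingCts p for every prime p ≥ 3.
-- The statement below is byte-identical to the frozen statement ExtCitation.FermatFrozen.S14.
import Fermat.Statements.S14
import Fermat.Agent.CFT.Global.HCF
import Fermat.Agent.CFT.Global.TameFirstIneqHolds
import Fermat.Agent.CFT.S14.AssemblyFinal

set_option autoImplicit false
open ExtCitation

namespace Fermat.Agent.S14

theorem result {p : ℕ} [Fact p.Prime] (h3 : 3 ≤ p) :
    ExtCitation.ExtVanishingCts p := by
  exact Fermat.Agent.CFT.S14.extVanishingCts_of_HCFStar_only h3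
    (Fermat.Agent.CFT.hcfStar_of_tame p h3
      (fun F N _ _ _ _ _ _ => Fermat.Agent.CFT.tameFirstIneq_holds p F N))

end Fermat.Agent.S14
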