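-- Statement S20 (row 19): dim S₂(Γ₀(N)) = genusFormula N.
-- Upper bound: Eichler–Shimura period embedding into the parabolic homs (Fermat.Agent.S21.Upper).
-- Lower bound: Riemann–Roch (Dedekind–Weber) for the canonical divisor div(dj) on the function
-- field of X₀(N) over ℂ, its degree (S24 pipeline over ℂ) and the dictionary L(div dj) → S₂(Γ₀(N)).
import Fermat.Statements.S20
import Fermat.Agent.S20.LowerContract
import Fermat.Agent.S20.DegreeCInst
import Fermat.Agent.S20.RRCanonical
import Fermat.Agent.S20.Dict.Instance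
import Fermat.Agent.S20.Dict.FinField
import Fermat.Agent.S20.Dict.InftyField
import Fermat.Agent.S21.Upper

set_option autoImplicit false
open CuspForm

namespace Fermat.Agent.S20

open AlgebraicCurve ModularCurve CongruenceSubgroup Module Fermat.Agent.S24 Fermat.Agent.S24.FF in
/-- The lower bound `genusFormula N ≤ dim S₂(Γ₀(N))`. -/
theorem genusFormula_le_finrank_cuspForm (N : ℕ) [NeZero N] :
    ModularCurve.genusFormula N ≤
      (Module.finrank ℂ (CuspForm (CongruenceSubgroup.Gamma0 N) 2) : ℚ) := by
  obtain ⟨-, hsum, -, heven, hnum⟩ := sum_Wdx_Fc N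
  have hRR := (two_mul_finrank_RRSpace_Wdx (isFF1_Fc N) (xGen_transcendental ℂ N)).2.2
  have hfin := Fermat.Agent.S21.finite_cuspForm_two N
  exact genusFormula_le_finrank_of N (xGen ℂ N) (degWdx N) hsum heven hnum hRR
    (exists_injective_RRSpace_of_dictHyp N (dictHyp_FL_of_fin N (dictHyp_fin N)))

theorem result (N : ℕ) [NeZero N] :
    (Module.finrank ℂ (CuspForm (CongruenceSubgroup.Gamma0 N) 2) : ℚ) = ModularCurve.genusFormula N :=
  Fermat.Agent.S21.finrank_cuspForm_eq_of_ge N (genusFormula_le_finrank_cuspForm N)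

end Fermat.Agent.S20
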