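-- Statement S22: finiteness of the Hecke algebra over the integers (period polynomial lattice).
import Fermat.Statements.S22
import Fermat.Agent.S22.Lattice
import Fermat.Agent.S22.Abstract
import Fermat.Agent.S22.Vanishing

set_option autoImplicit false
open CuspForm

namespace Fermat.Agent.S22

theorem result (N : ℕ) [NeZero N] (k : ℤ) (S : Set ℕ) :
    Module.Finite ℤ (CuspForm.heckeAlgebra N k S) := by
  by_cases hk : k ≤ 1
  · have hsub : Subsingleton (CuspForm (CongruenceSubgroup.Gamma0 N) k) :=
      ⟨fun f g => by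
        rw [cuspForm_eq_zero_of_weight_le_one N hk f, cuspForm_eq_zero_of_weight_le_one N hk g]⟩
    have hsub2 : Subsingleton (Module.End ℂ (CuspForm (CongruenceSubgroup.Gamma0 N) k)) :=
      ⟨fun a b => LinearMap.ext fun f => Subsingleton.elim _ _⟩
    have hsub3 : Subsingleton (CuspForm.heckeAlgebra N k S) :=
      ⟨fun a b => Subtype.ext (Subsingleton.elim _ _)⟩
    exact Module.Finite.of_finite
  · obtain ⟨n, rfl⟩ : ∃ n : ℕ, k = (n : ℤ) + 1 := ⟨(k - 1).toNat, by omega⟩
    have hn : 1 ≤ n := by omega
    refine finite_adjoin_of_stable_lattice (CuspForm.heckeGenerators N ((n : ℤ) + 1) S)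
      (periodLattice n N) periodLattice_fg ?_ (periodLattice_separating hn)
    rintro t (⟨ℓ, hℓ, hℓN, -, rfl⟩ | ⟨q, hqN, hq, -, rfl⟩) l hl
    · exact periodLattice_stable_T hℓ hℓN l hl
    · exact periodLattice_stable_U hq hqN l hl

end Fermat.Agent.S22
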