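import Fermat.Statements.S23
import Fermat.Agent.S23.Denominators
import Fermat.Agent.S23.Conj
import Fermat.Agent.S23.AlgData
import Fermat.Agent.S23.TForm
import Fermat.Agent.S23.TFormQ

set_option autoImplicit false
open CuspForm

namespace Fermat.Agent.S23

open UpperHalfPlane CongruenceSubgroup ModularForm in
/-- `S₂(Γ₀(N))` is stable under all automorphisms of `ℂ` acting on `q`-expansion coefficients. -/
theorem exists_conj (N : ℕ) [NeZero N] (σ : ℂ ≃+* ℂ) (f : CuspForm (Gamma0 N) 2) :
    ∃ F : CuspForm (Gamma0 N) 2,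
      ∀ n, ModularFormClass.qCoeff (⇑F) n = σ (ModularFormClass.qCoeff (⇑f) n) := by
  obtain ⟨m, d, r, a, hm, hd, hr, ha, hD0, H1, H2⟩ :=
    exists_algebraic_data N (tForm N) (fun γ h => mem_Gamma0_of_slash_tFun N γ h) f
  obtain ⟨F, hF⟩ := exists_conj_of_data N (tForm N) (fun σ => qExpansion_tForm_map N σ) σ f
    m d r a hm hd hr ha hD0 H1 H2
  refine ⟨F, fun n => ?_⟩
  show (qExpansion 1 F).coeff n = σ ((qExpansion 1 f).coeff n)
  rw [hF, twistPS_coeff]

theorem result (N : ℕ) [NeZero N] : CuspForm.HasIntegralStructure N 2 :=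
  hasIntegralStructure_of_twist (fun σ f => exists_conj N σ f)

end Fermat.Agent.S23
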