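import Fermat.Statements.S16
import Fermat.Agent.S16.Frontier
import Fermat.Agent.S16.Low.Main
import Fermat.Agent.S16.Dual.Main
import Fermat.Agent.S16.Eis.Contract
import Fermat.Agent.S16.Up.UpFinal

set_option autoImplicit false
open ModularCurve CuspForm
open ModularCurve

namespace Fermat.Agent.S16

theorem result
    (p : ℕ) [Fact p.Prime] :
    Nat.card (↥(heckeLatticeAlgebra p ∅) ⧸
        Ideal.map ((latticeRestrictHom p ∅).toRingHom.comp (heckeEvalForms p 2))
          (eisensteinIdeal p)) =
      eisensteinNumerator p :=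
  Fermat.Agent.S16x.s16_of_contracts p (Fermat.Agent.S16x.s16_low p) (Fermat.Agent.S16x.s16_dual p)
    (Fermat.Agent.S16.Eis.s16e_contractEIS p) (Fermat.Agent.S16UF.s16uf_up p)

end Fermat.Agent.S16
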