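import Fermat.Statements.S24
import Fermat.Agent.S24.Final
import Fermat.Agent.S24.Real.EmbFinite
import Fermat.Agent.S24.Real.EmbInfty
import Fermat.Agent.S24.Real.Degree

set_option autoImplicit false
open ModularCurve

namespace Fermat.Agent.S24

theorem result (N : ℕ) [NeZero N]
    [AlgebraicCurve.HasCanonicalDivisor (K := AlgebraicClosure ℚ) (F := ↥(ModularCurve.modularFunctionFieldBar N))] :
    (AlgebraicCurve.genus (AlgebraicClosure ℚ) ↥(ModularCurve.modularFunctionFieldBar N) : ℚ)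
      = ModularCurve.genusFormula N :=
  genus_eq_genusFormula_of_emb N iotaBar (xGen Kbar N)
    (xGen_transcendental Kbar N)
    (finiteDimensional_over_xGen Kbar N iotaBar)
    (finrank_le_card Kbar N iotaBar)
    (embFinite Kbar N iotaBar)
    (fun τ₀ a c => embFinite_algebraMap Kbar N iotaBar τ₀ a c)
    (fun τ₀ a => embFinite_xGen Kbar N iotaBar τ₀ a)
    (fun τ₀ a h hh => embFinite_mul_of_mem_Gamma0 Kbar N iotaBar τ₀ a h hh)
    (fun τ₀ a b e => (embFinite_eq_iff Kbar N iotaBar τ₀ a b).mp e)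
    (fun τ₀ a σ hσ ζ hζ f => embFinite_stab Kbar N iotaBar τ₀ a σ hσ ζ hζ f)
    (embInfty Kbar N iotaBar)
    (fun a c => embInfty_algebraMap Kbar N iotaBar a c)
    (fun a => embInfty_xGen Kbar N iotaBar a)
    (fun a h hh => embInfty_mul_of_mem_Gamma0 Kbar N iotaBar a h hh)
    (fun a b e => (embInfty_eq_iff Kbar N iotaBar a b).mp e)
    ModularGroup.T⁻¹ (Or.inr rfl)
    (zetaInfty N) (zetaInfty_isPrimitiveRoot_units N)
    (fun a f => embInfty_T_inv Kbar N iotaBar a f)

end Fermat.Agent.S24
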