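-- Statement S49: Deligne-Serre lifting lemma (weight two, level N, prime above 3).
import Fermat.Statements.S49
import Fermat.Agent.S49.Lifting
import Fermat.Agent.S49.Recursion
import Fermat.Agent.S49.BridgeCoeff
import Fermat.Agent.S49.Forms

set_option autoImplicit false
open CuspForm EisensteinWeightOne CongruenceSubgroup ModularFormClass
open FLT FLT.AbstractIntegralStructure

namespace Fermat.Agent.S49

theorem result
    {N : ℕ} [NeZero N] (h : CuspForm.HasIntegralBasis N) {a : ℕ → ℤ}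
    (heig : FormalHecke.IsEigensystem
      (fun ℓ => if ℓ ∣ N then 0 else ((chiNegThree ℓ : ℤ) : ℤ)) a)
    (hreal : CuspForm.IsLatticeRealized N a) :
    ∃ (f : CuspForm (Gamma0 N) 2) (_ : f.IsNormalizedEigenform)
      (𝔪' : Ideal (integralClosure ℤ ℂ)), 𝔪'.IsMaximal ∧
      ((3 : ℕ) : integralClosure ℤ ℂ) ∈ 𝔪' ∧
      ∀ (ℓ : ℕ) (_ : ℓ.Prime) (_ : ¬ ℓ ∣ N),
        ∃ c : integralClosure ℤ ℂ, (c : ℂ) = ModularFormClass.qCoeff f ℓ ∧
          c - (a ℓ : integralClosure ℤ ℂ) ∈ 𝔪' := by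
  obtain ⟨f₀, hf₀, af, haf, hbr⟩ := hreal
  have hcong : ∀ n, (3 : ℤ) ∣ af n - a n := by
    intro n
    have := dvd_add (hbr n) (three_dvd_bridge_coeff_sub a n)
    simpa using this
  have hfd := finiteDimensional_of_hasIntegralBasis h
  have hfin := heckeAlgebra_finite h
  have hmax := mIdeal_isMaximal heig haf hcong
  obtain ⟨θ, v, 𝔪', hv0, hv, h𝔪', hθ𝔪⟩ :=
    exists_eigen_lift (R := CuspForm.heckeAlgebra N 2 ∅) (V := CuspForm (Gamma0 N) 2)
      (CuspForm.heckeAlgebra N 2 ∅).val.toRingHom Subtype.val_injective (mIdeal f₀)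
  -- eigenvalues
  let lam : ℕ → ℂ := fun p => if hp : p.Prime then ((θ (Tp N hp) : integralClosure ℤ ℂ) : ℂ) else 0
  have hrecv : ∀ p : ℕ, p.Prime → ∀ n : ℕ,
      qCoeff ⇑v (p * n) + (eN N p : ℂ) * (if p ∣ n then qCoeff ⇑v (n / p) else 0) =
        lam p * qCoeff ⇑v n := by
    intro p hp n
    have h1 := hv (Tp N hp)
    have h2 := congrArg (fun F : CuspForm (Gamma0 N) 2 => qCoeff ⇑F n) h1
    simp only [qCoeff_smul'] at h2
    rw [← qCoeff_Tp hp v n]
    simp only [lam, dif_pos hp]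
    exact h2
  have hv1 : qCoeff ⇑v 1 ≠ 0 := by
    intro h1
    apply hv0
    have hz := eq_zero_of_recursion (e := fun p => (eN N p : ℂ)) (lam := lam) h1 hrecv
    apply ext_qCoeff
    intro n
    have h0 : qCoeff ⇑(0 : CuspForm (Gamma0 N) 2) n = 0 := by
      simp only [qCoeff, FunLike.coe_zero]
      rw [UpperHalfPlane.qExpansion_zero, map_zero]
    rw [h0]
    rcases Nat.eq_zero_or_pos n with rfl | hn
    · exact qCoeff_zero_idx v
    · exact hz n hn
  set f : CuspForm (Gamma0 N) 2 := (qCoeff ⇑v 1)⁻¹ • v with hf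
  have hfn : ∀ n, qCoeff ⇑f n = (qCoeff ⇑v 1)⁻¹ * qCoeff ⇑v n := fun n => qCoeff_smul' _ v n
  have hf1 : qCoeff ⇑f 1 = 1 := by rw [hfn, inv_mul_cancel₀ hv1]
  have hrecf : ∀ p : ℕ, p.Prime → ∀ n : ℕ,
      qCoeff ⇑f (p * n) + (eN N p : ℂ) * (if p ∣ n then qCoeff ⇑f (n / p) else 0) =
        lam p * qCoeff ⇑f n := by
    intro p hp n
    have := hrecv p hp n
    simp only [hfn]
    split_ifs with hpn
    · rw [if_pos hpn] at this
      linear_combination (qCoeff ⇑v 1)⁻¹ * this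
    · rw [if_neg hpn] at this
      linear_combination (qCoeff ⇑v 1)⁻¹ * this
  have hlam : ∀ p : ℕ, p.Prime → qCoeff ⇑f p = lam p := by
    intro p hp
    have := hrecf p hp 1
    rw [if_neg (by simpa using hp.one_lt.ne' : ¬ p ∣ 1), mul_zero, add_zero, mul_one, hf1,
      mul_one] at this
    exact this
  have heigf : FormalHecke.IsEigensystem (fun p => (eN N p : ℂ)) (fun n => qCoeff ⇑f n) := by
    refine ⟨hf1, fun p hp n => ?_⟩
    simp only
    rw [hlam p hp]
    exact hrecf p hp n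
  have hnorm : f.IsNormalizedEigenform := by
    refine ⟨hf1, mul_of_isEigensystem heigf, ?_, ?_⟩
    · intro p r hp hpN
      have := pow_of_isEigensystem heigf p r hp
      simp only [eN, if_neg hpN] at this
      rw [this]
      push_cast
      rfl
    · intro p r hp hpN
      have := pow_of_isEigensystem heigf p r hp
      simp only [eN, if_pos hpN] at this
      rw [this]
      simp
  refine ⟨f, hnorm, 𝔪', h𝔪', ?_, ?_⟩
  · have h3 : ((3 : ℤ) : CuspForm.heckeAlgebra N 2 ∅) ∈ mIdeal f₀ :=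
      (intCast_mem_mIdeal_iff heig haf hcong 3).mpr dvd_rfl
    have := hθ𝔪 _ h3
    rw [map_intCast] at this
    exact_mod_cast this
  · intro ℓ hℓ hℓN
    refine ⟨θ (Tp N hℓ), ?_, ?_⟩
    · rw [hlam ℓ hℓ]
      simp only [lam, dif_pos hℓ]
    · have := hθ𝔪 _ (Tp_sub_intCast_mem heig haf hcong hℓ)
      rw [map_sub, map_intCast] at this
      exact this

end Fermat.Agent.S49
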