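import Fermat.Statements.S51
import Fermat.Agent.S51.ThreeSide
import Fermat.Agent.S51.FiveSide
import Fermat.Agent.S51.Five
import Fermat.Agent.S51.Cubic
import Fermat.Agent.S51.Semistable
import Fermat.Agent.S51.Units
import Fermat.Agent.S51.Descent

set_option autoImplicit false
open WeierstrassCurve WeierstrassCurve.Affine WeierstrassCurve.Affine.Point
open CuspForm ModularFormClass UpperHalfPlane
open WeierstrassCurve

namespace Fermat.Agent.S51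

theorem result (W : WeierstrassCurve ℤ) (hΔ : W.Δ ≠ 0) (hW : W.IsSemistableModel) : W.ModRepIsIrreducible 3 ∨ W.ModRepIsIrreducible 5 := by
  by_contra hcon
  push Not at hcon
  obtain ⟨h3, h5⟩ := hcon
  unfold WeierstrassCurve.ModRepIsIrreducible at h3 h5
  set E : WeierstrassCurve ℚ := W.map (Int.castRingHom ℚ) with hE
  have hΔE : E.Δ ≠ 0 := by
    rw [hE, WeierstrassCurve.map_Δ]
    simpa using hΔ
  obtain ⟨x0, hx0⟩ := exists_rational_root_psi3 E hΔE h3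
  have hΔK : (E⁄Kbar).Δ ≠ 0 := A.baseChange_Δ_ne_zero E hΔE
  obtain ⟨P, hP0, hP5⟩ := Five.exists_five_torsion (E⁄Kbar) hΔK
  obtain ⟨s1, s2, x1, x2, hs1, hs2, hne, hf1, hf2, hd1, hd2⟩ :=
    exists_rational_pair_aux E ⟨P, hP0, hP5⟩ h5
  have hb2 : (E⁄Kbar).b₂ = ((E.b₂ : ℚ) : Kbar) := by
    show (E.map (algebraMap ℚ Kbar)).b₂ = _
    rw [WeierstrassCurve.map_b₂]; exact eq_ratCast _ _
  have hb4 : (E⁄Kbar).b₄ = ((E.b₄ : ℚ) : Kbar) := by
    show (E.map (algebraMap ℚ Kbar)).b₄ = _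
    rw [WeierstrassCurve.map_b₄]; exact eq_ratCast _ _
  have hb6 : (E⁄Kbar).b₆ = ((E.b₆ : ℚ) : Kbar) := by
    show (E.map (algebraMap ℚ Kbar)).b₆ = _
    rw [WeierstrassCurve.map_b₆]; exact eq_ratCast _ _
  have hb8 : (E⁄Kbar).b₈ = ((E.b₈ : ℚ) : Kbar) := by
    show (E.map (algebraMap ℚ Kbar)).b₈ = _
    rw [WeierstrassCurve.map_b₈]; exact eq_ratCast _ _
  rw [eq_ratCast] at hs1 hs2
  unfold f2 at hf1 hf2 hd1 hd2
  unfold phi2 at hd1 hd2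
  rw [hb2, hb4, hb6] at hf1 hf2
  rw [hb2, hb4, hb6, hb8] at hd1 hd2
  have hΔE' : -E.b₂ ^ 2 * E.b₈ - 8 * E.b₄ ^ 3 - 27 * E.b₆ ^ 2 + 9 * E.b₂ * E.b₄ * E.b₆ ≠ 0 := hΔE
  obtain ⟨u, v, h, hu, hv, hh, hcub, h729, hj⟩ :=
    exists_cubic_point (K := Kbar) E.b₂ E.b₄ E.b₆ E.b₈ E.b_relation hΔE' x0 hx0 s1 s2 x1 x2
      hs1 hs2 hne hf1 hf2 hd1 hd2
  have hj' : (W.c₄ : ℚ) ^ 3 * h = (W.Δ : ℚ) * (h + 27) * (h + 3) ^ 3 := by
    have hc4 : E.c₄ = (W.c₄ : ℚ) := by rw [hE, WeierstrassCurve.map_c₄]; simp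
    have hD : E.Δ = (W.Δ : ℚ) := by rw [hE, WeierstrassCurve.map_Δ]; simp
    rw [← hc4, ← hD]
    exact hj
  have hhval : h = -729/2 ∨ h = -2 ∨ h = -32 ∨ h = -729/32 := by
    rcases cubic_points_of_descent rational_points u v hu hv hcub with
      ⟨rfl, rfl⟩ | ⟨rfl, rfl⟩ | ⟨rfl, rfl⟩ | ⟨rfl, rfl⟩
    · left; linarith
    · right; left; linarith
    · right; right; right; linarith
    · right; right; left; linarith
  exact not_semistable W hW hΔ h hhval hj'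

end Fermat.Agent.S51
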