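import Fermat.Statements.S54
import Fermat.Agent.S54.FrobeniusExists
-- import your own Fermat.Agent.* helpers here

set_option autoImplicit false
open GaloisRep GaloisRep.DeformationRingData

namespace Fermat.Agent.S54

open Polynomial in
theorem coeff_one_quadratic {T : Type} [CommRing T] (a b : T) :
    (X ^ 2 - C a * X + C b : T[X]).coeff 1 = -a := by
  simp [coeff_X, coeff_C]

theorem pi_T_mem_range {R T : Type} [CommRing R] [IsLocalRing R] [CommRing T] [IsLocalRing T]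
    (φ : R →+* T) (hφ : IsLocalHom φ) (ρR : GaloisRepAdic R) (ρT : GaloisRepAdic T)
    (h : (ρR.baseChangeAlong φ hφ).IsEquiv ρT)
    (σ : AlgebraicClosure ℚ ≃ₐ[ℚ] AlgebraicClosure ℚ) :
    LinearMap.charpoly (ρT.ρ σ) = (LinearMap.charpoly (ρR.ρ σ)).map φ := by
  obtain ⟨e⟩ := h
  have h1 : ρT.ρ σ = e.toLinearEquiv.conj ((ρR.baseChangeAlong φ hφ).ρ σ) := by
    apply LinearMap.ext
    intro x
    rw [LinearEquiv.conj_apply_apply, e.map_apply, LinearEquiv.apply_symm_apply]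
  rw [h1, LinearEquiv.charpoly_conj]
  letI : Algebra R T := φ.toAlgebra
  exact LinearMap.charpoly_baseChange (ρR.ρ σ) T

theorem result {𝒪 : Type} [CommRing 𝒪] [IsDomain 𝒪] [IsDiscreteValuationRing 𝒪] [IsAdicComplete (IsLocalRing.maximalIdeal 𝒪) 𝒪] {ρbar : ResidualGaloisRep (IsLocalRing.ResidueField 𝒪)} {𝒟 : ∀ ⦃A : Type⦄ [CommRing A] [IsLocalRing A] [Algebra 𝒪 A], GaloisRepAdic A → Prop} (D : GaloisRep.DeformationRingData 𝒪 ρbar 𝒟) {N : ℕ} [NeZero N] {S : Set ℕ} {θ : CuspForm.heckeAlgebra N 2 S →+* IsLocalRing.ResidueField 𝒪} {T : Type} [CommRing T] [IsLocalRing T] [IsNoetherianRing T] [IsAdicComplete (IsLocalRing.maximalIdeal T) T] [Algebra 𝒪 T] [IsLocalHom (algebraMap 𝒪 T)] [Module.Finite 𝒪 T] [Module.Free 𝒪 T] (H : CuspForm.HeckeGaloisRepDatum N S 𝒪 θ T) (hS : ∀ q : ℕ, q.Prime → q ∣ N → q ∈ S) (h𝒟 : 𝒟 H.ρ) (hres : H.ρ.residual.IsEquiv (ρbar.baseChangeAlong (IsLocalRing.ResidueField.map (algebraMap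 𝒪 T)))) : ∃ φ : D.R →ₐ[𝒪] T, Function.Surjective φ ∧ ∃ hφ : IsLocalHom (φ : D.R →+* T), (D.ρ.baseChangeAlong (φ : D.R →+* T) hφ).IsEquiv H.ρ := by
  obtain ⟨φ, ⟨hφ, hequiv⟩, -⟩ := D.universal T H.residue_surjective H.ρ h𝒟 hres
  refine ⟨φ, ?_, hφ, hequiv⟩
  have hmem : ∀ (x : Module.End ℂ (CuspForm (CongruenceSubgroup.Gamma0 N) 2))
      (hx : x ∈ CuspForm.heckeAlgebra N 2 S), H.π ⟨x, hx⟩ ∈ φ.range := by
    intro x hx
    induction hx using Algebra.adjoin_induction with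
    | mem x hx =>
      rcases hx with ⟨ℓ, hℓ, hℓN, hℓS, rfl⟩ | ⟨q, hqN, hq, hqS, rfl⟩
      · obtain ⟨A, hA, σ, hσ⟩ := exists_frobenius ℓ hℓ
        have h1 := H.charpoly_frob ℓ hℓ hℓN hℓS A hA σ hσ
        rw [pi_T_mem_range (φ : D.R →+* T) hφ D.ρ H.ρ hequiv σ] at h1
        have h2 := congrArg (fun p => Polynomial.coeff p 1) h1
        simp only [Polynomial.coeff_map, coeff_one_quadratic] at h2
        refine ⟨-(LinearMap.charpoly (D.ρ.ρ σ)).coeff 1, ?_⟩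
        change φ _ = H.π (CuspForm.heckeAlgebra.T hℓ hℓN hℓS)
        rw [map_neg]
        exact neg_eq_iff_eq_neg.mpr h2
      · exact absurd (hS q hq hqN) hqS
    | algebraMap r =>
      refine ⟨(r : D.R), ?_⟩
      have : (⟨algebraMap ℤ _ r, Subalgebra.algebraMap_mem _ r⟩ : CuspForm.heckeAlgebra N 2 S) =
          ((r : ℤ) : CuspForm.heckeAlgebra N 2 S) := by
        apply Subtype.ext
        simp
      rw [this, map_intCast, map_intCast]
    | add x y hx hy ihx ihy =>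
      have : (⟨x + y, add_mem hx hy⟩ : CuspForm.heckeAlgebra N 2 S) = ⟨x, hx⟩ + ⟨y, hy⟩ := rfl
      rw [this, map_add]
      exact add_mem ihx ihy
    | mul x y hx hy ihx ihy =>
      have : (⟨x * y, mul_mem hx hy⟩ : CuspForm.heckeAlgebra N 2 S) = ⟨x, hx⟩ * ⟨y, hy⟩ := rfl
      rw [this, map_mul]
      exact mul_mem ihx ihy
  have htop : (⊤ : Subalgebra 𝒪 T) ≤ φ.range := by
    rw [← H.adjoin_range_π]
    refine Algebra.adjoin_le ?_
    rintro _ ⟨⟨x, hx⟩, rfl⟩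
    exact hmem x hx
  intro x
  exact htop (Algebra.mem_top (R := 𝒪) (x := x))

end Fermat.Agent.S54
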