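-- Statement S55 (row 49): Poitou-Tate `Ш¹(M^∨(1)) × Ш²(M) → 𝔽_p` is perfect (`p` odd).
-- The statement below is byte-identical to the frozen statement groupCohomology.FermatFrozen.S55.
import Fermat.Statements.S55
import Fermat.Agent.CFT.PT.S55OfTheta
import Fermat.Agent.CFT.PT.IdeleESid
import Fermat.Agent.CFT.PT.ThetaCoindBij
import Fermat.Agent.CFT.PT.ThetaDiag
import Fermat.Agent.CFT.PT.CSideFinal
import Fermat.Agent.CFT.PT.CSideC
import Fermat.Agent.CFT.PT.CFIPlug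
import Fermat.Agent.CFT.PT.CFITransferInst
import Fermat.Agent.CFT.PT.CFIUnitsB
import Fermat.Agent.CFT.PT.ClInfRep
import Fermat.Agent.CFT.PT.IdeleLevelU
import Fermat.Agent.CFT.PT.CWHoldsB

set_option autoImplicit false
set_option autoImplicit false
open CategoryTheory Module groupCohomology ExtCitation
open groupCohomology

namespace Fermat.Agent.S55

theorem result
    {p : ℕ} [Fact p.Prime] (hp2 : p ≠ 2) (S : Finset Nat.Primes) (hpS : pPrime p ∈ S)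
    (M : Rep (ZMod p) (AlgebraicClosure ℚ ≃ₐ[ℚ] AlgebraicClosure ℚ))
    [FiniteDimensional (ZMod p) M]
    (hsm : ∀ m : M, ∃ F : IntermediateField ℚ (AlgebraicClosure ℚ), FiniteDimensional ℚ F ∧
      ∀ s ∈ F.fixingSubgroup, M.ρ s m = m)
    (hMur : ∀ q : Nat.Primes, q ∉ S → ∀ A : ValuationSubring (AlgebraicClosure ℚ),
      A.LiesOverPrime (q : ℕ) → ∀ g ∈ A.inertiaSubgroupIn ℚ, M.ρ g = 1) :
    ∃ B : sha₁ S (M.dualTwist (cycloChar p)) →ₗ[ZMod p] sha₂ S M →ₗ[ZMod p] ZMod p,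
      (∀ y, (∀ x, B y x = 0) → y = 0) ∧ (∀ x, (∀ y, B y x = 0) → x = 0) := by
  have hS : S.Nonempty := ⟨_, hpS⟩
  -- (C-W): the class `y₀ ∈ Hlc²(Γℚ, J_S)[p]` with non-zero image in `Hlc²(Γℚ, C')`
  obtain ⟨y₀, hy₀, hπ⟩ := Fermat.Agent.PT.cwH_exists_class_of_c p S hp2 hpS
    (fun V' hV' hcyc => Fermat.Agent.PT.csC_hc hV' hcyc hp2)
  -- (K9): the first inequality for `C' = J_S / Ē`
  have hFI := Fermat.Agent.PT.cfiP_hFI_all S hS p
    ((Fermat.Agent.PT.isCoprimeTorsion_int_iff p).1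
      (Fermat.Agent.PT.clR_isCoprimeTorsion_idClRep S hpS))
    (fun V' hV' c hc => Fermat.Agent.PT.idLU_eq_zero_of_smul hV' p 0 c hc)
    (Fermat.Agent.PT.cfiUB_hW p) (Fermat.Agent.PT.cfi_hFIC S p hp2)
  exact Fermat.Agent.PT.s55Side_main_theta hp2 hpS (Fermat.Agent.PT.idJSRep S)
    (Fermat.Agent.PT.idC'Rep S) (Fermat.Agent.PT.idES_toJS S) (Fermat.Agent.PT.idJSToC' S)
    (Fermat.Agent.PT.idES_seq S).zero (Fermat.Agent.PT.idES_seq_shortExact S hS)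
    (Fermat.Agent.PT.isSmooth_idJSRep S) (fun v => Fermat.Agent.PT.thCo_theta S v.1)
    (Fermat.Agent.PT.thCoB_bijective S) (Fermat.Agent.PT.thD_hdiag S)
    (Fermat.Agent.PT.csF_CA1 hp2 hpS) (Fermat.Agent.PT.csF_CA5 hp2 hpS) hFI y₀ hy₀ hπ M hsm hMur

end Fermat.Agent.S55
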